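import Mathlib
import Fermat.Agent.MUL.Lib.RR.NonSpecial
import Fermat.Agent.MUL.Lib.BadRed.Nodal.Setup
import Fermat.Agent.MUL.S24.Assembly

section MergeWrap_Lib_BadRed_Nodal_RRNodal -- from Lib/BadRed/Nodal/RRNodal.lean

set_option autoImplicit false
set_option linter.style.haveILetI false
set_option linter.unusedSectionVars false

/-!
# Cluster T, WP N4 (a): Riemann–Roch on a nodal curve with two components

Two function fields `F₁ / k`, `F₂ / k` (the components), nodes `s₁ i ↔ s₂ i`, `i : ι`.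
For divisors `R₁`, `R₂` on the components, with support disjoint from the nodes,

`nodalRR s₁ s₂ R₁ R₂ = {(a, b) ∈ L₁(R₁) × L₂(R₂) | a(s₁ i) = b(s₂ i) for all i}`.

* `exists_interpolation` : if `deg R₁ - |ι| > 2 g₁ - 2`, every family of values at the nodes is
  taken by some `a ∈ L₁(R₁)`;
* `finrank_nodalRR` : if moreover `deg R₂ > 2 g₂ - 2`, then
  `dim nodalRR = deg R₁ + deg R₂ + 2 - g₁ - g₂ - |ι|` (`= deg R + 1 - g` by the genus relation).
-/

noncomputable section

open AlgebraicCurve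

namespace Fermat.Agent.BadRed

open Fermat.Agent.RR

section ValAt

variable {K F : Type*} [Field K] [Field F] [Algebra K F]

theorem rn_ord_neg (Q : Place K F) (f : F) : Q.ord (-f) = Q.ord f := by
  unfold Place.ord
  rw [Valuation.map_neg]

/-- `f` vanishes at `Q` (junk-safe). -/
def VanAt (Q : Place K F) (f : F) : Prop := f = 0 ∨ 0 < Q.ord f

theorem valAt_iff_vanAt (Q : Place K F) (f : F) (c : K) :
    ValAt Q f c ↔ VanAt Q (f - algebraMap K F c) := by
  unfold ValAt VanAt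
  rw [sub_eq_zero]

theorem vanAt_zero (Q : Place K F) : VanAt Q (0 : F) := Or.inl rfl

theorem VanAt.add {Q : Place K F} {f g : F} (hf : VanAt Q f) (hg : VanAt Q g) :
    VanAt Q (f + g) := by
  rcases eq_or_ne f 0 with rfl | hf0
  · rwa [zero_add]
  rcases eq_or_ne g 0 with rfl | hg0
  · rwa [add_zero]
  rcases eq_or_ne (f + g) 0 with h0 | h0
  · exact Or.inl h0
  right
  have h1 := hf.resolve_left hf0
  have h2 := hg.resolve_left hg0
  exact lt_of_lt_of_le (lt_min h1 h2) (Fermat.Agent.S24Res.ord_add_ge Q hf0 hg0 h0)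

theorem VanAt.smul {Q : Place K F} {f : F} (hf : VanAt Q f) (a : K) : VanAt Q (a • f) := by
  rcases eq_or_ne f 0 with rfl | hf0
  · rw [smul_zero]; exact vanAt_zero Q
  rcases eq_or_ne a 0 with rfl | ha0
  · rw [zero_smul]; exact vanAt_zero Q
  right
  have h1 := hf.resolve_left hf0
  rw [Algebra.smul_def, Q.ord_mul ((map_ne_zero (algebraMap K F)).mpr ha0) hf0,
    Fermat.Agent.S24Res.ord_algebraMap, zero_add]
  exact h1

theorem VanAt.neg {Q : Place K F} {f : F} (hf : VanAt Q f) : VanAt Q (-f) := by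
  rcases hf with rfl | hf
  · rw [neg_zero]; exact vanAt_zero Q
  · right; rwa [rn_ord_neg]

theorem ValAt.add {Q : Place K F} {f g : F} {c d : K} (hf : ValAt Q f c) (hg : ValAt Q g d) :
    ValAt Q (f + g) (c + d) := by
  rw [valAt_iff_vanAt] at hf hg ⊢
  have := hf.add hg
  have e : f + g - algebraMap K F (c + d) = f - algebraMap K F c + (g - algebraMap K F d) := by
    rw [map_add]; ring
  rwa [e]

theorem ValAt.smul {Q : Place K F} {f : F} {c : K} (hf : ValAt Q f c) (a : K) :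
    ValAt Q (a • f) (a * c) := by
  rw [valAt_iff_vanAt] at hf ⊢
  have := hf.smul a
  have e : a • f - algebraMap K F (a * c) = a • (f - algebraMap K F c) := by
    rw [smul_sub, map_mul, Algebra.smul_def, Algebra.smul_def]
  rwa [e]

theorem valAt_zero (Q : Place K F) : ValAt Q (0 : F) (0 : K) := Or.inl (map_zero _).symm

theorem valAt_zero_right_iff (Q : Place K F) (f : F) : ValAt Q f 0 ↔ VanAt Q f := by
  rw [valAt_iff_vanAt, map_zero, sub_zero]

theorem vanAt_algebraMap_iff (Q : Place K F) (c : K) : VanAt Q (algebraMap K F c) ↔ c = 0 := by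
  constructor
  · rintro (h | h)
    · exact (map_eq_zero (algebraMap K F)).mp h
    · rw [Fermat.Agent.S24Res.ord_algebraMap] at h
      exact absurd h (lt_irrefl _)
  · rintro rfl
    rw [map_zero]; exact vanAt_zero Q

theorem ValAt.unique {Q : Place K F} {f : F} {c d : K} (hf : ValAt Q f c) (hg : ValAt Q f d) :
    c = d := by
  rw [valAt_iff_vanAt] at hf hg
  have h := hg.add hf.neg
  have e : f - algebraMap K F d + -(f - algebraMap K F c) = algebraMap K F (c - d) := by
    rw [map_sub]; ring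
  rw [e, vanAt_algebraMap_iff] at h
  exact sub_eq_zero.mp h

theorem ValAt.sum {Q : Place K F} {J : Type*} (s : Finset J) (f : J → F) (c : J → K)
    (h : ∀ j ∈ s, ValAt Q (f j) (c j)) : ValAt Q (∑ j ∈ s, f j) (∑ j ∈ s, c j) := by
  classical
  induction s using Finset.induction_on with
  | empty => simpa using valAt_zero Q
  | insert a s ha ih =>
    rw [Finset.sum_insert ha, Finset.sum_insert ha]
    exact (h a (Finset.mem_insert_self a s)).add
      (ih fun j hj => h j (Finset.mem_insert_of_mem hj))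

/-- an element of `L(R)` is regular at a point outside the support of `R`. -/
theorem ord_nonneg_of_mem_of_apply_eq_zero {R : Divisor K F} {Q : Place K F} (hQ : R Q = 0)
    {f : F} (hf : f ∈ riemannRochSpace R) : 0 ≤ Q.ord f := by
  rcases (mem_riemannRochSpace_iff.mp hf) Q with rfl | h
  · rw [Place.ord_zero]
  · rw [hQ, neg_zero] at h
    exact h

/-- `L(R - ∑ T)` is the space of the elements of `L(R)` vanishing on `T` (`T` disjoint from the
support of `R`). -/
theorem mem_riemannRochSpace_sub_sumPlaces_iff {R : Divisor K F} {T : Finset (Place K F)}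
    (hT : ∀ Q ∈ T, R Q = 0) (f : F) :
    f ∈ riemannRochSpace (R - sumPlaces T) ↔
      f ∈ riemannRochSpace R ∧ ∀ Q ∈ T, VanAt Q f := by
  classical
  rw [mem_riemannRochSpace_iff, mem_riemannRochSpace_iff]
  constructor
  · intro h
    refine ⟨fun v => ?_, fun Q hQ => ?_⟩
    · rcases h v with h0 | h1
      · exact Or.inl h0
      · right
        rw [Finsupp.sub_apply] at h1
        by_cases hv : v ∈ T
        · rw [sumPlaces_apply_of_mem hv] at h1
          omega
        · rw [sumPlaces_apply_of_not_mem hv] at h1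
          omega
    · rcases h Q with h0 | h1
      · exact Or.inl h0
      · right
        rw [Finsupp.sub_apply, hT Q hQ, sumPlaces_apply_of_mem hQ] at h1
        omega
  · rintro ⟨h1, h2⟩ v
    rcases eq_or_ne f 0 with rfl | hf0
    · exact Or.inl rfl
    right
    have h1v := (h1 v).resolve_left hf0
    rw [Finsupp.sub_apply]
    by_cases hv : v ∈ T
    · rw [sumPlaces_apply_of_mem hv, hT v hv]
      have := (h2 v hv).resolve_left hf0
      omega
    · rw [sumPlaces_apply_of_not_mem hv]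
      omega

end ValAt

section Nodal

variable {k F₁ F₂ ι : Type*} [Field k] [Field F₁] [Algebra k F₁] [Field F₂] [Algebra k F₂]

open Classical in
/-- **Interpolation at the nodes**: if `deg R₁ - |ι| > 2 g₁ - 2`, every family of values at the
nodes is taken by some element of `L₁(R₁)`. -/
theorem exists_interpolation [Fintype ι] (h₁ : IsRRField k F₁) (s₁ : ι → Place k F₁)
    (hs₁ : Function.Injective s₁) (R₁ : Divisor k F₁) (hR₁ : ∀ i, R₁ (s₁ i) = 0)
    (hdeg : 2 * (genusFF k F₁ : ℤ) - 2 < Divisor.degree R₁ - Fintype.card ι) (c : ι → k) :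
    ∃ a ∈ riemannRochSpace R₁, ∀ i, ValAt (s₁ i) a (c i) := by
  set N : Finset (Place k F₁) := Finset.univ.image s₁ with hN
  have hNcard : N.card = Fintype.card ι := by
    rw [hN, Finset.card_image_of_injective _ hs₁, Finset.card_univ]
  have hNR : ∀ Q ∈ N, R₁ Q = 0 := by
    intro Q hQ
    obtain ⟨i, -, rfl⟩ := Finset.mem_image.mp hQ
    exact hR₁ i
  have hmemN : ∀ i, s₁ i ∈ N := fun i => Finset.mem_image_of_mem s₁ (Finset.mem_univ i)
  -- for every node `j` a function vanishing at the other nodes, with value `≠ 0` at `s₁ j`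
  have hex : ∀ j : ι, ∃ a : F₁, a ∈ riemannRochSpace R₁ ∧
      (∀ i, i ≠ j → VanAt (s₁ i) a) ∧ ∃ d : k, d ≠ 0 ∧ ValAt (s₁ j) a d := by
    intro j
    set T : Finset (Place k F₁) := N.erase (s₁ j) with hT
    have hTcard : (T.card : ℤ) = Fintype.card ι - 1 := by
      rw [hT, Finset.card_erase_of_mem (hmemN j), hNcard]
      have : 0 < Fintype.card ι := Fintype.card_pos_iff.mpr ⟨j⟩
      omega
    have hTR : ∀ Q ∈ T, R₁ Q = 0 := fun Q hQ => hNR Q (Finset.mem_of_mem_erase hQ)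
    have hellT : (ell (R₁ - sumPlaces T) : ℤ) =
        Divisor.degree (R₁ - sumPlaces T) + 1 - (genusFF k F₁ : ℤ) :=
      ell_of_degree_gt h₁ (by rw [map_sub, degree_sumPlaces h₁, hTcard]; omega)
    have hellN : (ell (R₁ - sumPlaces N) : ℤ) =
        Divisor.degree (R₁ - sumPlaces N) + 1 - (genusFF k F₁ : ℤ) :=
      ell_of_degree_gt h₁ (by rw [map_sub, degree_sumPlaces h₁, hNcard]; omega)
    have hlt : ell (R₁ - sumPlaces N) < ell (R₁ - sumPlaces T) := by
      have : (ell (R₁ - sumPlaces N) : ℤ) < (ell (R₁ - sumPlaces T) : ℤ) := by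
        rw [hellT, hellN, map_sub, map_sub, degree_sumPlaces h₁, degree_sumPlaces h₁, hTcard,
          hNcard]
        omega
      exact_mod_cast this
    have hnle : ¬ riemannRochSpace (R₁ - sumPlaces T) ≤ riemannRochSpace (R₁ - sumPlaces N) := by
      intro hle
      have := finite_riemannRochSpace h₁ (R₁ - sumPlaces N)
      have := Submodule.finrank_mono hle
      rw [← ell_def, ← ell_def] at this
      omega
    obtain ⟨a, haT, haN⟩ := SetLike.not_le_iff_exists.mp hnle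
    rw [mem_riemannRochSpace_sub_sumPlaces_iff hTR] at haT
    rw [mem_riemannRochSpace_sub_sumPlaces_iff hNR] at haN
    obtain ⟨d, hd⟩ := exists_const_sub h₁ (s₁ j)
      (ord_nonneg_of_mem_of_apply_eq_zero (hR₁ j) haT.1)
    have hvan : ∀ i, i ≠ j → VanAt (s₁ i) a := fun i hij =>
      haT.2 (s₁ i) (Finset.mem_erase.mpr ⟨fun h => hij (hs₁ h), hmemN i⟩)
    refine ⟨a, haT.1, hvan, d, ?_, hd⟩
    rintro rfl
    apply haN
    refine ⟨haT.1, fun Q hQ => ?_⟩
    obtain ⟨i, -, rfl⟩ := Finset.mem_image.mp hQ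
    by_cases hij : i = j
    · rw [hij]
      exact (valAt_zero_right_iff _ _).mp hd
    · exact hvan i hij
  choose a ha hvan d hd0 hd using hex
  refine ⟨∑ j, (c j / d j) • a j, ?_, fun i => ?_⟩
  · exact Submodule.sum_mem _ fun j _ => Submodule.smul_mem _ _ (ha j)
  · have hc : c i = ∑ j, if j = i then c i else 0 := by
      rw [Finset.sum_ite_eq' Finset.univ i (fun _ => c i), if_pos (Finset.mem_univ i)]
    rw [hc]
    refine ValAt.sum _ _ _ fun j _ => ?_
    by_cases hji : j = i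
    · rw [if_pos hji]
      subst hji
      have := (hd j).smul (c j / d j)
      rwa [div_mul_cancel₀ _ (hd0 j)] at this
    · rw [if_neg hji]
      have h0 : ValAt (s₁ i) (a j) 0 :=
        (valAt_zero_right_iff _ _).mpr (hvan j i (fun h => hji h.symm))
      have := h0.smul (c j / d j)
      rwa [mul_zero] at this

/-- The nodal Riemann–Roch space: pairs `(a, b) ∈ L₁(R₁) × L₂(R₂)` taking the same value on both
branches of every node. -/
def nodalRR (s₁ : ι → Place k F₁) (s₂ : ι → Place k F₂) (R₁ : Divisor k F₁)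
    (R₂ : Divisor k F₂) : Submodule k (F₁ × F₂) where
  carrier := {ab | ab.1 ∈ riemannRochSpace R₁ ∧ ab.2 ∈ riemannRochSpace R₂ ∧
    ∀ i, ∃ c : k, ValAt (s₁ i) ab.1 c ∧ ValAt (s₂ i) ab.2 c}
  add_mem' := by
    rintro x y ⟨hx1, hx2, hx3⟩ ⟨hy1, hy2, hy3⟩
    refine ⟨Submodule.add_mem _ hx1 hy1, Submodule.add_mem _ hx2 hy2, fun i => ?_⟩
    obtain ⟨c, hc1, hc2⟩ := hx3 i
    obtain ⟨d, hd1, hd2⟩ := hy3 i
    exact ⟨c + d, hc1.add hd1, hc2.add hd2⟩
  zero_mem' := ⟨Submodule.zero_mem _, Submodule.zero_mem _, fun i => ⟨0, valAt_zero _, valAt_zero _⟩⟩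
  smul_mem' := by
    rintro a x ⟨hx1, hx2, hx3⟩
    refine ⟨Submodule.smul_mem _ a hx1, Submodule.smul_mem _ a hx2, fun i => ?_⟩
    obtain ⟨c, hc1, hc2⟩ := hx3 i
    exact ⟨a * c, hc1.smul a, hc2.smul a⟩

theorem mem_nodalRR {s₁ : ι → Place k F₁} {s₂ : ι → Place k F₂} {R₁ : Divisor k F₁}
    {R₂ : Divisor k F₂} {ab : F₁ × F₂} :
    ab ∈ nodalRR s₁ s₂ R₁ R₂ ↔ ab.1 ∈ riemannRochSpace R₁ ∧ ab.2 ∈ riemannRochSpace R₂ ∧
      ∀ i, ∃ c : k, ValAt (s₁ i) ab.1 c ∧ ValAt (s₂ i) ab.2 c := Iff.rfl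

theorem nodalRR_le_prod (s₁ : ι → Place k F₁) (s₂ : ι → Place k F₂) (R₁ : Divisor k F₁)
    (R₂ : Divisor k F₂) :
    nodalRR s₁ s₂ R₁ R₂ ≤ (riemannRochSpace R₁).prod (riemannRochSpace R₂) :=
  fun _ h => ⟨h.1, h.2.1⟩

theorem finite_nodalRR (h₁ : IsRRField k F₁) (h₂ : IsRRField k F₂) (s₁ : ι → Place k F₁)
    (s₂ : ι → Place k F₂) (R₁ : Divisor k F₁) (R₂ : Divisor k F₂) :
    Module.Finite k (nodalRR s₁ s₂ R₁ R₂) := by
  have hfg : ((riemannRochSpace R₁).prod (riemannRochSpace R₂)).FG :=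
    (fg_riemannRochSpace h₁ R₁).prod (fg_riemannRochSpace h₂ R₂)
  have : Module.Finite k ((riemannRochSpace R₁).prod (riemannRochSpace R₂)) :=
    Module.Finite.iff_fg.mpr hfg
  exact Submodule.finiteDimensional_of_le (nodalRR_le_prod s₁ s₂ R₁ R₂)

/-- **Riemann–Roch on the nodal curve**: if `deg R₁ - |ι| > 2 g₁ - 2` and `deg R₂ > 2 g₂ - 2`
(supports disjoint from the nodes) then
`dim L_C(R₁, R₂) = deg R₁ + deg R₂ + 2 - g₁ - g₂ - |ι|`. -/
theorem finrank_nodalRR [Fintype ι] (h₁ : IsRRField k F₁) (h₂ : IsRRField k F₂)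
    (s₁ : ι → Place k F₁) (s₂ : ι → Place k F₂) (hs₁ : Function.Injective s₁)
    (R₁ : Divisor k F₁) (R₂ : Divisor k F₂)
    (hR₁ : ∀ i, R₁ (s₁ i) = 0) (hR₂ : ∀ i, R₂ (s₂ i) = 0)
    (hdeg₁ : 2 * (genusFF k F₁ : ℤ) - 2 < Divisor.degree R₁ - Fintype.card ι)
    (hdeg₂ : 2 * (genusFF k F₂ : ℤ) - 2 < Divisor.degree R₂) :
    (Module.finrank k (nodalRR s₁ s₂ R₁ R₂) : ℤ) =
      Divisor.degree R₁ + Divisor.degree R₂ + 2 - (genusFF k F₁ : ℤ) - (genusFF k F₂ : ℤ)
        - Fintype.card ι := by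
  classical
  set N : Finset (Place k F₁) := Finset.univ.image s₁ with hN
  have hNcard : N.card = Fintype.card ι := by
    rw [hN, Finset.card_image_of_injective _ hs₁, Finset.card_univ]
  have hNR : ∀ Q ∈ N, R₁ Q = 0 := by
    intro Q hQ
    obtain ⟨i, -, rfl⟩ := Finset.mem_image.mp hQ
    exact hR₁ i
  have hmemN : ∀ i, s₁ i ∈ N := fun i => Finset.mem_image_of_mem s₁ (Finset.mem_univ i)
  have := finite_nodalRR h₁ h₂ s₁ s₂ R₁ R₂
  have := finite_riemannRochSpace h₁ (R₁ - sumPlaces N)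
  have := finite_riemannRochSpace h₂ R₂
  -- the maps of the exact sequence `0 → L₁(R₁ - nodes) → L_C → L₂(R₂) → 0`
  let f : ↥(riemannRochSpace (R₁ - sumPlaces N)) →ₗ[k] ↥(nodalRR s₁ s₂ R₁ R₂) :=
    LinearMap.codRestrict _ ((LinearMap.inl k F₁ F₂) ∘ₗ (riemannRochSpace (R₁ - sumPlaces N)).subtype)
      (fun a => by
        have ha := (mem_riemannRochSpace_sub_sumPlaces_iff hNR _).mp a.2
        refine ⟨ha.1, Submodule.zero_mem _, fun i => ⟨0, ?_, valAt_zero _⟩⟩
        exact (valAt_zero_right_iff _ _).mpr (ha.2 _ (hmemN i)))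
  let g : ↥(nodalRR s₁ s₂ R₁ R₂) →ₗ[k] ↥(riemannRochSpace R₂) :=
    LinearMap.codRestrict _ ((LinearMap.snd k F₁ F₂) ∘ₗ (nodalRR s₁ s₂ R₁ R₂).subtype)
      (fun x => x.2.2.1)
  have hf_inj : Function.Injective f := by
    intro a b hab
    have := congrArg (fun x : ↥(nodalRR s₁ s₂ R₁ R₂) => (x : F₁ × F₂).1) hab
    exact Subtype.ext this
  have hg_surj : Function.Surjective g := by
    intro b
    have hval : ∀ i, ∃ c : k, ValAt (s₂ i) (b : F₂) c := fun i =>
      exists_const_sub h₂ (s₂ i) (ord_nonneg_of_mem_of_apply_eq_zero (hR₂ i) b.2)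
    choose c hc using hval
    obtain ⟨a, ha, hac⟩ := exists_interpolation h₁ s₁ hs₁ R₁ hR₁ hdeg₁ c
    exact ⟨⟨(a, b), ha, b.2, fun i => ⟨c i, hac i, hc i⟩⟩, Subtype.ext rfl⟩
  have hexact : LinearMap.ker g = LinearMap.range f := by
    ext x
    rw [LinearMap.mem_ker, LinearMap.mem_range]
    constructor
    · intro hx
      have hx2 : (x : F₁ × F₂).2 = 0 := congrArg Subtype.val hx
      have hmem : (x : F₁ × F₂).1 ∈ riemannRochSpace (R₁ - sumPlaces N) := by
        rw [mem_riemannRochSpace_sub_sumPlaces_iff hNR]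
        refine ⟨x.2.1, fun Q hQ => ?_⟩
        obtain ⟨i, -, rfl⟩ := Finset.mem_image.mp hQ
        obtain ⟨c, hc1, hc2⟩ := x.2.2.2 i
        rw [hx2] at hc2
        have hc0 : c = 0 := hc2.unique (valAt_zero _)
        rw [hc0] at hc1
        exact (valAt_zero_right_iff _ _).mp hc1
      refine ⟨⟨_, hmem⟩, Subtype.ext (Prod.ext rfl ?_)⟩
      exact hx2.symm
    · rintro ⟨a, rfl⟩
      exact Subtype.ext rfl
  have hrank := LinearMap.finrank_range_add_finrank_ker g
  rw [LinearMap.range_eq_top.mpr hg_surj, finrank_top, hexact,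
    LinearMap.finrank_range_of_inj hf_inj, ← ell_def, ← ell_def] at hrank
  have hellN : (ell (R₁ - sumPlaces N) : ℤ) =
      Divisor.degree (R₁ - sumPlaces N) + 1 - (genusFF k F₁ : ℤ) :=
    ell_of_degree_gt h₁ (by rw [map_sub, degree_sumPlaces h₁, hNcard]; omega)
  have hell2 := ell_of_degree_gt h₂ hdeg₂
  rw [map_sub, degree_sumPlaces h₁, hNcard] at hellN
  rw [← hrank]
  push_cast
  rw [hellN, hell2]
  ring

open Classical in
/-- The unconditional upper bound `dim L_C(R₁, R₂) ≤ ℓ₁(R₁ - nodes) + ℓ₂(R₂)`. -/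
theorem finrank_nodalRR_le [Fintype ι] (h₁ : IsRRField k F₁) (h₂ : IsRRField k F₂)
    (s₁ : ι → Place k F₁) (s₂ : ι → Place k F₂)
    (R₁ : Divisor k F₁) (R₂ : Divisor k F₂) (hR₁ : ∀ i, R₁ (s₁ i) = 0) :
    Module.finrank k (nodalRR s₁ s₂ R₁ R₂) ≤
      ell (R₁ - sumPlaces (Finset.univ.image s₁)) + ell R₂ := by
  classical
  set N : Finset (Place k F₁) := Finset.univ.image s₁ with hN
  have hNR : ∀ Q ∈ N, R₁ Q = 0 := by
    intro Q hQ
    obtain ⟨i, -, rfl⟩ := Finset.mem_image.mp hQ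
    exact hR₁ i
  have hmemN : ∀ i, s₁ i ∈ N := fun i => Finset.mem_image_of_mem s₁ (Finset.mem_univ i)
  have := finite_nodalRR h₁ h₂ s₁ s₂ R₁ R₂
  have := finite_riemannRochSpace h₁ (R₁ - sumPlaces N)
  have := finite_riemannRochSpace h₂ R₂
  let f : ↥(riemannRochSpace (R₁ - sumPlaces N)) →ₗ[k] ↥(nodalRR s₁ s₂ R₁ R₂) :=
    LinearMap.codRestrict _ ((LinearMap.inl k F₁ F₂) ∘ₗ (riemannRochSpace (R₁ - sumPlaces N)).subtype)
      (fun a => by
        have ha := (mem_riemannRochSpace_sub_sumPlaces_iff hNR _).mp a.2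
        refine ⟨ha.1, Submodule.zero_mem _, fun i => ⟨0, ?_, valAt_zero _⟩⟩
        exact (valAt_zero_right_iff _ _).mpr (ha.2 _ (hmemN i)))
  let g : ↥(nodalRR s₁ s₂ R₁ R₂) →ₗ[k] ↥(riemannRochSpace R₂) :=
    LinearMap.codRestrict _ ((LinearMap.snd k F₁ F₂) ∘ₗ (nodalRR s₁ s₂ R₁ R₂).subtype)
      (fun x => x.2.2.1)
  have hle : LinearMap.ker g ≤ LinearMap.range f := by
    intro x hx
    rw [LinearMap.mem_ker] at hx
    have hx2 : (x : F₁ × F₂).2 = 0 := congrArg Subtype.val hx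
    have hmem : (x : F₁ × F₂).1 ∈ riemannRochSpace (R₁ - sumPlaces N) := by
      rw [mem_riemannRochSpace_sub_sumPlaces_iff hNR]
      refine ⟨x.2.1, fun Q hQ => ?_⟩
      obtain ⟨i, -, rfl⟩ := Finset.mem_image.mp hQ
      obtain ⟨c, hc1, hc2⟩ := x.2.2.2 i
      rw [hx2] at hc2
      have hc0 : c = 0 := hc2.unique (valAt_zero _)
      rw [hc0] at hc1
      exact (valAt_zero_right_iff _ _).mp hc1
    refine ⟨⟨_, hmem⟩, Subtype.ext (Prod.ext rfl ?_)⟩
    exact hx2.symm
  have hrank := LinearMap.finrank_range_add_finrank_ker g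
  have h1 : Module.finrank k (LinearMap.range g) ≤ ell R₂ := by
    rw [ell_def]
    exact Submodule.finrank_le _
  have h2 : Module.finrank k (LinearMap.ker g) ≤ ell (R₁ - sumPlaces N) := by
    rw [ell_def]
    exact (Submodule.finrank_mono hle).trans (LinearMap.finrank_range_le f)
  omega

end Nodal

end Fermat.Agent.BadRed
end
end MergeWrap_Lib_BadRed_Nodal_RRNodal
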