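import Mathlib
import Fermat.Agent.MUL.Lib.RR.Weil
import Fermat.Agent.MUL.Lib.RR.NonSpecial
import Fermat.Agent.MUL.Lib.BadRed.Nodal.KeyMain

section MergeWrap_Lib_BadRed_Nodal_Interp1 -- from Lib/BadRed/Nodal/Interp1.lean

set_option autoImplicit false

/-!
# Cluster T, N2b: generic elements of Riemann-Roch spaces (one curve)

* `exists_exact_ord` : for `deg D ≥ 2g`, a generic element of `L(D)` has order exactly `-D P` at
  finitely many prescribed places.
* `exists_param` : a function of `L(R)` vanishing on `Z`, with a simple zero at `Q` and of order `0`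
  on `U`.
* `exists_unit_fn` : a nonzero function of `L(R)` vanishing on `Z`, of order `0` on `U`.
-/

noncomputable section

open AlgebraicCurve Fermat.Agent.RR

namespace Fermat.Agent.BadRed

namespace Interp1

variable {k F : Type*} [Field k] [Field F] [Algebra k F]

/-- for `deg D ≥ 2g`, a generic element of `L(D)` does not lie in `L(D - P)`, for `P` in a
finite set. -/
theorem exists_generic_mem (h : IsRRField k F) [Infinite k] (D : Divisor k F)
    (hdeg : 2 * (genusFF k F : ℤ) - 1 < Divisor.degree D) (U : Finset (Place k F)) :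
    ∃ a ∈ riemannRochSpace D, a ≠ 0 ∧
      ∀ P ∈ U, a ∉ riemannRochSpace (D - Finsupp.single P 1) := by
  classical
  have hfinD := finite_riemannRochSpace h D
  have hellD : (ell D : ℤ) = Divisor.degree D + 1 - (genusFF k F : ℤ) :=
    ell_of_degree_gt h (by linarith)
  have hellP : ∀ P : Place k F, (ell (D - Finsupp.single P 1) : ℤ) =
      Divisor.degree D - 1 + 1 - (genusFF k F : ℤ) := by
    intro P
    have := ell_of_degree_gt h (D := D - Finsupp.single P 1) (by
      rw [map_sub, degree_single_one h]; linarith)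
    rw [this, map_sub, degree_single_one h]
  -- the proper subspaces
  set W : Submodule k F := riemannRochSpace D with hW
  let sub : Place k F → Subspace k W := fun P =>
    (riemannRochSpace (D - Finsupp.single P 1)).comap W.subtype
  have hle : ∀ P : Place k F, riemannRochSpace (D - Finsupp.single P 1) ≤ W := fun P =>
    riemannRochSpace_mono (by
      rw [Finsupp.le_def]
      intro v
      rw [Finsupp.sub_apply]
      have : (0 : ℤ) ≤ Finsupp.single P (1 : ℤ) v := by
        rw [Finsupp.single_apply]; split_ifs <;> norm_num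
      linarith)
  have hne : ∀ P : Place k F, sub P ≠ ⊤ := by
    intro P htop
    have heq : riemannRochSpace (D - Finsupp.single P 1) = W := by
      apply le_antisymm (hle P)
      intro x hx
      have : (⟨x, hx⟩ : W) ∈ sub P := by rw [htop]; trivial
      exact this
    have h1 := hellP P
    rw [ell_def, heq, ← ell_def, hellD] at h1
    linarith
  have hbot : (⊥ : Subspace k W) ≠ ⊤ := by
    intro hbt
    have hpos : (0 : ℤ) < (ell D : ℤ) := by rw [hellD]; linarith [Int.natCast_nonneg (genusFF k F)]
    have hz : Module.finrank k W = 0 := by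
      have : Module.finrank k (⊤ : Submodule k W) = 0 := by rw [← hbt]; exact finrank_bot k W
      rwa [finrank_top] at this
    rw [ell_def, hz] at hpos
    exact lt_irrefl _ hpos
  set s : Finset (Subspace k W) := insert ⊥ (U.image sub) with hs
  have htop : (⊤ : Subspace k W) ∉ s := by
    rw [hs, Finset.mem_insert, not_or]
    refine ⟨fun h' => hbot h'.symm, fun h' => ?_⟩
    obtain ⟨P, _, hP⟩ := Finset.mem_image.mp h'
    exact hne P hP
  have hcov := Subspace.biUnion_ne_univ_of_top_notMem htop
  obtain ⟨a, ha⟩ : ∃ a : W, a ∉ ⋃ p ∈ s, (p : Set W) := by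
    by_contra hcon
    push Not at hcon
    exact hcov (Set.eq_univ_of_forall hcon)
  simp only [Set.mem_iUnion, not_exists] at ha
  refine ⟨a.1, a.2, ?_, ?_⟩
  · intro h0
    apply ha ⊥ (by rw [hs]; exact Finset.mem_insert_self _ _)
    have : a = 0 := Subtype.ext h0
    rw [this]
    exact zero_mem _
  · intro P hP hmem
    apply ha (sub P) (by rw [hs]; exact Finset.mem_insert_of_mem (Finset.mem_image_of_mem _ hP))
    exact hmem

/-- for `deg D ≥ 2g`, a generic element of `L(D)` has order exactly `-D P` at the places of a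
finite set. -/
theorem exists_exact_ord (h : IsRRField k F) [Infinite k] (D : Divisor k F)
    (hdeg : 2 * (genusFF k F : ℤ) - 1 < Divisor.degree D) (U : Finset (Place k F)) :
    ∃ a ∈ riemannRochSpace D, a ≠ 0 ∧ ∀ P ∈ U, P.ord a = -D P := by
  classical
  obtain ⟨a, haD, ha0, hU⟩ := exists_generic_mem h D hdeg U
  refine ⟨a, haD, ha0, fun P hP => ?_⟩
  have hge : ∀ v : Place k F, -D v ≤ v.ord a := fun v =>
    ((mem_riemannRochSpace_iff.mp haD) v).resolve_left ha0
  by_contra hne
  apply hU P hP
  rw [mem_riemannRochSpace_iff]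
  intro v
  right
  rw [Finsupp.sub_apply, Finsupp.single_apply]
  split_ifs with hv
  · subst hv
    have := hge P
    omega
  · have := hge v
    omega

/-- a function of `L(R)` vanishing on `Z`, with a simple zero at `Q`, of order `0` on `U`. -/
theorem exists_param (h : IsRRField k F) [Infinite k] (R : Divisor k F)
    (Z U : Finset (Place k F)) (Q : Place k F)
    (hZ : ∀ P ∈ Z, R P = 0) (hU : ∀ P ∈ U, R P = 0 ∧ P ∉ Z ∧ P ≠ Q) (hQ : R Q = 0 ∧ Q ∉ Z)
    (hdeg : 2 * (genusFF k F : ℤ) + Z.card < Divisor.degree R) :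
    ∃ a ∈ riemannRochSpace R, a ≠ 0 ∧ (∀ P ∈ Z, 0 < P.ord a) ∧ Q.ord a = 1 ∧
      ∀ P ∈ U, P.ord a = 0 := by
  classical
  set D : Divisor k F := R - sumPlaces Z - Finsupp.single Q 1 with hD
  have hdegD : Divisor.degree D = Divisor.degree R - Z.card - 1 := by
    rw [hD, map_sub, map_sub, degree_sumPlaces h, degree_single_one h]
  obtain ⟨a, haD, ha0, hord⟩ := exists_exact_ord h D (by rw [hdegD]; linarith) (insert Q U)
  have hDapp : ∀ v, D v = R v - sumPlaces Z v - Finsupp.single Q (1 : ℤ) v := fun v => by
    rw [hD, Finsupp.sub_apply, Finsupp.sub_apply]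
  have hge : ∀ v : Place k F, -D v ≤ v.ord a := fun v =>
    ((mem_riemannRochSpace_iff.mp haD) v).resolve_left ha0
  refine ⟨a, ?_, ha0, ?_, ?_, ?_⟩
  · refine riemannRochSpace_mono ?_ haD
    rw [Finsupp.le_def]
    intro v
    rw [hDapp]
    have h1 : (0 : ℤ) ≤ sumPlaces Z v := by
      have := sumPlaces_nonneg Z
      rw [Finsupp.le_def] at this
      exact this v
    have h2 : (0 : ℤ) ≤ Finsupp.single Q (1 : ℤ) v := by
      rw [Finsupp.single_apply]; split_ifs <;> norm_num
    linarith
  · intro P hP
    have := hge P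
    have hPQ : P ≠ Q := fun e => hQ.2 (e ▸ hP)
    rw [hDapp, hZ P hP, sumPlaces_apply_of_mem hP, Finsupp.single_eq_of_ne hPQ] at this
    omega
  · have := hord Q (Finset.mem_insert_self _ _)
    rw [this, hDapp, hQ.1, sumPlaces_apply_of_not_mem hQ.2, Finsupp.single_eq_same]
    norm_num
  · intro P hP
    have := hord P (Finset.mem_insert_of_mem hP)
    obtain ⟨h1, h2, h3⟩ := hU P hP
    rw [this, hDapp, h1, sumPlaces_apply_of_not_mem h2, Finsupp.single_eq_of_ne h3]
    norm_num

/-- a nonzero function of `L(R)` vanishing on `Z`, of order `0` on `U`. -/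
theorem exists_unit_fn (h : IsRRField k F) [Infinite k] (R : Divisor k F)
    (Z U : Finset (Place k F))
    (hZ : ∀ P ∈ Z, R P = 0) (hU : ∀ P ∈ U, R P = 0 ∧ P ∉ Z)
    (hdeg : 2 * (genusFF k F : ℤ) + Z.card - 1 < Divisor.degree R) :
    ∃ a ∈ riemannRochSpace R, a ≠ 0 ∧ (∀ P ∈ Z, 0 < P.ord a) ∧ ∀ P ∈ U, P.ord a = 0 := by
  classical
  set D : Divisor k F := R - sumPlaces Z with hD
  have hdegD : Divisor.degree D = Divisor.degree R - Z.card := by
    rw [hD, map_sub, degree_sumPlaces h]
  obtain ⟨a, haD, ha0, hord⟩ := exists_exact_ord h D (by rw [hdegD]; linarith) U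
  have hDapp : ∀ v, D v = R v - sumPlaces Z v := fun v => by
    rw [hD, Finsupp.sub_apply]
  have hge : ∀ v : Place k F, -D v ≤ v.ord a := fun v =>
    ((mem_riemannRochSpace_iff.mp haD) v).resolve_left ha0
  refine ⟨a, ?_, ha0, ?_, ?_⟩
  · refine riemannRochSpace_mono ?_ haD
    rw [Finsupp.le_def]
    intro v
    rw [hDapp]
    have h1 : (0 : ℤ) ≤ sumPlaces Z v := by
      have := sumPlaces_nonneg Z
      rw [Finsupp.le_def] at this
      exact this v
    linarith
  · intro P hP
    have := hge P
    rw [hDapp, hZ P hP, sumPlaces_apply_of_mem hP] at this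
    omega
  · intro P hP
    have := hord P hP
    obtain ⟨h1, h2⟩ := hU P hP
    rw [this, hDapp, h1, sumPlaces_apply_of_not_mem h2]
    norm_num

end Interp1

end Fermat.Agent.BadRed
end
end MergeWrap_Lib_BadRed_Nodal_Interp1
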