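import Mathlib
import Fermat.Agent.MUL.Lib.RR.NonSpecial
import Fermat.Agent.MUL.Lib.BadRed.Nodal.Setup
import Fermat.Agent.MUL.S18.NSBuild
import Fermat.Agent.MUL.Lib.BadRed.Nodal.NSDef
import Fermat.Agent.MUL.Lib.BadRed.Nodal.RRNodal
import Fermat.Agent.MUL.Lib.BadRed.Nodal.Interp1
import Fermat.Agent.MUL.S18.KeyGlue

section MergeWrap_Lib_BadRed_Nodal_NS -- from Lib/BadRed/Nodal/NS.lean

set_option autoImplicit false
set_option linter.style.haveILetI false
set_option linter.unusedSectionVars false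

/-!
# Cluster T, WP N1: nodal non-special points

Two function fields `F₁ / k`, `F₂ / k` (the components), nodes `s₁ i ↔ s₂ i`, `i : ι`, `ι ≠ ∅`.
`exists_nodal_nonspecial`: outside any finite sets of places there are finite sets `T₁`, `T₂` of
smooth points with `|T₁| + |T₂| + 1 = g₁ + g₂ + |ι|` (`= g + 1` by the genus relation) such that
every nodal pair `(a, b)` with at most simple poles in `(T₁, T₂)` is a constant pair `(c, c)`.

Proof.  `T₂` := `g₂` non-special points of `F₂` (`L₂(T₂) = k`, `exists_nonspecial`);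
`T₁` := `g₁ + |ι| - 1` points of `F₁` with `L₁(T₁ - ∑ s₁ i) = 0` (the step lemma
`exists_place_ell_add_single_eq`, starting from `- ∑ s₁ i`).  Then `b = c` is constant, `a - c`
vanishes at all nodes, so `a - c ∈ L₁(T₁ - ∑ s₁ i) = 0`.
-/

noncomputable section

open AlgebraicCurve

namespace Fermat.Agent.BadRed

open Fermat.Agent.RR

variable {K F : Type*} [Field K] [Field F] [Algebra K F]

/-- adding generic points keeps `ℓ = 0` up to degree `g - 1`. -/
theorem exists_sumPlaces_ell_eq_zero (h : IsRRField K F) [Infinite (Place K F)]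
    (D₀ : Divisor K F) (h0 : ell D₀ = 0) (Z : Finset (Place K F)) (n : ℕ)
    (hn : Divisor.degree D₀ + n ≤ (genusFF K F : ℤ) - 1) :
    ∃ W : Finset (Place K F), Disjoint W Z ∧ W.card = n ∧ ell (D₀ + sumPlaces W) = 0 := by
  classical
  induction n with
  | zero => exact ⟨∅, Finset.disjoint_empty_left Z, rfl, by rw [sumPlaces_empty, add_zero, h0]⟩
  | succ n ih =>
    obtain ⟨W, hWZ, hWcard, hell⟩ := ih (by push_cast at hn ⊢; omega)
    have hD : Divisor.degree (D₀ + sumPlaces W) + 1 - (genusFF K F : ℤ) <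
        (ell (D₀ + sumPlaces W) : ℤ) := by
      rw [map_add, degree_sumPlaces h, hWcard, hell]
      push_cast at hn ⊢
      omega
    obtain ⟨P, hP, hPell⟩ := exists_place_ell_add_single_eq h (D₀ + sumPlaces W) hD (Z ∪ W)
    rw [Finset.mem_union, not_or] at hP
    refine ⟨Finset.cons P W hP.2, ?_, ?_, ?_⟩
    · rw [Finset.disjoint_left]
      intro Q hQ
      rcases Finset.mem_cons.mp hQ with rfl | hQ
      · exact hP.1
      · exact Finset.disjoint_left.mp hWZ hQ
    · rw [Finset.card_cons, hWcard]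
    · rw [sumPlaces_cons hP.2, ← add_assoc, hPell, hell]

/-- a function with at most simple poles in `T` and no other pole lies in `L(∑ T)`. -/
theorem mem_riemannRochSpace_sumPlaces {T : Finset (Place K F)} {f : F}
    (h1 : ∀ Q, Q ∉ T → 0 ≤ Q.ord f) (h2 : ∀ Q ∈ T, -1 ≤ Q.ord f) :
    f ∈ riemannRochSpace (sumPlaces T) := by
  classical
  rw [mem_riemannRochSpace_iff]
  intro Q
  right
  by_cases hQ : Q ∈ T
  · rw [sumPlaces_apply_of_mem hQ]
    exact h2 Q hQ
  · rw [sumPlaces_apply_of_not_mem hQ]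
    simpa using h1 Q hQ

theorem nodal_ord_neg (Q : Place K F) (f : F) : Q.ord (-f) = Q.ord f := by
  unfold Place.ord
  rw [Valuation.map_neg]

open Classical in
/-- the divisor of the nodes on one component. -/
theorem degree_sumPlaces_image {ι : Type*} [Fintype ι] (h : IsRRField K F)
    (s : ι → Place K F) (hs : Function.Injective s) :
    Divisor.degree (sumPlaces (Finset.univ.image s)) = Fintype.card ι := by
  rw [degree_sumPlaces h, Finset.card_image_of_injective _ hs, Finset.card_univ]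

/-- a constant function takes only its own value. -/
theorem valAt_algebraMap_iff (Q : Place K F) (c c' : K) :
    ValAt Q (algebraMap K F c) c' ↔ c = c' := by
  constructor
  · rintro (hc | hc)
    · exact (algebraMap K F).injective hc
    · by_contra hne
      rw [← map_sub, Fermat.Agent.S24Res.ord_algebraMap] at hc
      exact lt_irrefl _ hc
  · rintro rfl
    exact Or.inl rfl

open Classical in
/-- the core of N1: if `L₂(T₂) = k` and `L₁(T₁ - ∑ s₁ i) = 0`, every nodal pair with at most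
simple poles in `(T₁, T₂)` is a constant pair. -/
theorem nodal_pair_const {k F₁ F₂ ι : Type*} [Field k] [Field F₁] [Algebra k F₁]
    [Field F₂] [Algebra k F₂] [Fintype ι]
    (h₁ : IsRRField k F₁) (h₂ : IsRRField k F₂)
    (s₁ : ι → Place k F₁) (s₂ : ι → Place k F₂)
    {T₁ : Finset (Place k F₁)} {T₂ : Finset (Place k F₂)}
    (hT₂ell : ell (sumPlaces T₂) = 1)
    (hT₁ell : ell (-sumPlaces (Finset.univ.image s₁) + sumPlaces T₁) = 0)
    (hnode₁ : ∀ i, s₁ i ∉ T₁)
    (a : F₁) (b : F₂)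
    (ha1 : ∀ Q, Q ∉ T₁ → 0 ≤ Q.ord a) (ha2 : ∀ Q ∈ T₁, -1 ≤ Q.ord a)
    (hb1 : ∀ Q, Q ∉ T₂ → 0 ≤ Q.ord b) (hb2 : ∀ Q ∈ T₂, -1 ≤ Q.ord b)
    (hnode : ∀ i, ∃ c : k, ValAt (s₁ i) a c ∧ ValAt (s₂ i) b c) :
    ∃ c : k, a = algebraMap k F₁ c ∧ b = algebraMap k F₂ c := by
  set N₁ : Finset (Place k F₁) := Finset.univ.image s₁ with hN₁
  have hbot : riemannRochSpace (-sumPlaces N₁ + sumPlaces T₁) = ⊥ := by
    haveI := finite_riemannRochSpace h₁ (-sumPlaces N₁ + sumPlaces T₁)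
    exact Submodule.finrank_eq_zero.mp hT₁ell
  -- `b` is constant
  obtain ⟨c, hc⟩ := eq_algebraMap_of_mem_of_ell_eq_one h₂ (sumPlaces_nonneg T₂) hT₂ell
    (mem_riemannRochSpace_sumPlaces hb1 hb2)
  refine ⟨c, ?_, hc⟩
  -- `a - c` vanishes at the nodes
  have hval : ∀ i, ValAt (s₁ i) a c := by
    intro i
    obtain ⟨c', h1, h2⟩ := hnode i
    rw [hc, valAt_algebraMap_iff] at h2
    rw [h2]
    exact h1
  by_contra hne
  have hf0 : a - algebraMap k F₁ c ≠ 0 := sub_ne_zero.mpr hne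
  have hmem : a - algebraMap k F₁ c ∈ riemannRochSpace (-sumPlaces N₁ + sumPlaces T₁) := by
    rw [mem_riemannRochSpace_iff]
    intro Q
    right
    rw [Finsupp.add_apply, Finsupp.neg_apply, neg_add, neg_neg]
    -- bound for `ord (a - c)` from a bound `m ≤ 0` for `ord a`
    have hbound : ∀ m : ℤ, m ≤ 0 → m ≤ Q.ord a → m ≤ Q.ord (a - algebraMap k F₁ c) := by
      intro m hm0 hma
      rcases eq_or_ne a 0 with rfl | ha
      · rw [zero_sub, nodal_ord_neg, Fermat.Agent.S24Res.ord_algebraMap]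
        exact hm0
      rcases eq_or_ne c 0 with rfl | hc0
      · rw [map_zero, sub_zero]
        exact hma
      have hcne : -algebraMap k F₁ c ≠ 0 :=
        neg_ne_zero.mpr ((map_ne_zero (algebraMap k F₁)).mpr hc0)
      have hadd := Fermat.Agent.S24Res.ord_add_ge Q ha hcne (by rwa [← sub_eq_add_neg])
      rw [nodal_ord_neg, Fermat.Agent.S24Res.ord_algebraMap, ← sub_eq_add_neg] at hadd
      exact le_trans (le_min hma hm0) hadd
    by_cases hQN : Q ∈ N₁
    · obtain ⟨i, -, rfl⟩ := Finset.mem_image.mp hQN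
      rw [sumPlaces_apply_of_mem hQN, sumPlaces_apply_of_not_mem (hnode₁ i)]
      rcases hval i with h | h
      · exact absurd h hne
      · omega
    · rw [sumPlaces_apply_of_not_mem hQN]
      by_cases hQT : Q ∈ T₁
      · rw [sumPlaces_apply_of_mem hQT]
        have := hbound (-1) (by omega) (ha2 Q hQT)
        omega
      · rw [sumPlaces_apply_of_not_mem hQT]
        have := hbound 0 le_rfl (ha1 Q hQT)
        omega
  rw [hbot, Submodule.mem_bot] at hmem
  exact hf0 hmem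

/-- **N1: nodal non-special points.** -/
theorem exists_nodal_nonspecial {k F₁ F₂ ι : Type*} [Field k] [Field F₁] [Algebra k F₁]
    [Field F₂] [Algebra k F₂] [IsAlgClosed k] [Fintype ι] [Nonempty ι]
    (h₁ : IsRRField k F₁) (h₂ : IsRRField k F₂)
    (s₁ : ι → Place k F₁) (s₂ : ι → Place k F₂) (hs₁ : Function.Injective s₁)
    (_hs₂ : Function.Injective s₂)
    (Z₁ : Finset (Place k F₁)) (Z₂ : Finset (Place k F₂)) :
    ∃ (T₁ : Finset (Place k F₁)) (T₂ : Finset (Place k F₂)),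
      T₁.card + T₂.card + 1 = genusFF k F₁ + genusFF k F₂ + Fintype.card ι ∧
      Disjoint T₁ Z₁ ∧ Disjoint T₂ Z₂ ∧ (∀ i, s₁ i ∉ T₁) ∧ (∀ i, s₂ i ∉ T₂) ∧
      ∀ (a : F₁) (b : F₂),
        (∀ Q, Q ∉ T₁ → 0 ≤ Q.ord a) → (∀ Q ∈ T₁, -1 ≤ Q.ord a) →
        (∀ Q, Q ∉ T₂ → 0 ≤ Q.ord b) → (∀ Q ∈ T₂, -1 ≤ Q.ord b) →
        (∀ i, ∃ c : k, ValAt (s₁ i) a c ∧ ValAt (s₂ i) b c) →
        ∃ c : k, a = algebraMap k F₁ c ∧ b = algebraMap k F₂ c := by
  classical
  haveI : Infinite k := IsAlgClosed.instInfinite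
  haveI : Infinite (Place k F₁) := infinite_place h₁
  haveI : Infinite (Place k F₂) := infinite_place h₂
  set N₁ : Finset (Place k F₁) := Finset.univ.image s₁ with hN₁
  set N₂ : Finset (Place k F₂) := Finset.univ.image s₂ with hN₂
  have hcard : 0 < Fintype.card ι := Fintype.card_pos
  -- second component: non-special points
  obtain ⟨T₂, hT₂Z, hT₂card, hT₂ell⟩ := exists_nonspecial h₂ (Z₂ ∪ N₂) (genusFF k F₂) le_rfl
  -- first component: `ℓ(T₁ - nodes) = 0`
  have hdeg0 : Divisor.degree (-sumPlaces N₁) = -(Fintype.card ι : ℤ) := by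
    rw [map_neg, degree_sumPlaces_image h₁ s₁ hs₁]
  have hell0 : ell (-sumPlaces N₁) = 0 :=
    ell_eq_zero_of_degree_neg h₁ (by rw [hdeg0]; omega)
  obtain ⟨T₁, hT₁Z, hT₁card, hT₁ell⟩ := exists_sumPlaces_ell_eq_zero h₁ (-sumPlaces N₁) hell0
    (Z₁ ∪ N₁) (genusFF k F₁ + Fintype.card ι - 1) (by
      rw [hdeg0]
      have : ((genusFF k F₁ + Fintype.card ι - 1 : ℕ) : ℤ) =
          (genusFF k F₁ : ℤ) + (Fintype.card ι : ℤ) - 1 := by
        rw [Nat.cast_sub (by omega)]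
        push_cast
        ring
      rw [this]
      omega)
  have hnode₁ : ∀ i, s₁ i ∉ T₁ := fun i hi =>
    Finset.disjoint_left.mp hT₁Z hi
      (Finset.mem_union_right _ (Finset.mem_image_of_mem s₁ (Finset.mem_univ i)))
  have hnode₂ : ∀ i, s₂ i ∉ T₂ := fun i hi =>
    Finset.disjoint_left.mp hT₂Z hi
      (Finset.mem_union_right _ (Finset.mem_image_of_mem s₂ (Finset.mem_univ i)))
  refine ⟨T₁, T₂, ?_, ?_, ?_, hnode₁, hnode₂, ?_⟩
  · rw [hT₁card, hT₂card]
    omega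
  · exact Finset.disjoint_of_subset_right Finset.subset_union_left hT₁Z
  · exact Finset.disjoint_of_subset_right Finset.subset_union_left hT₂Z
  · intro a b ha1 ha2 hb1 hb2 hnode
    exact nodal_pair_const h₁ h₂ s₁ s₂ hT₂ell hT₁ell hnode₁ a b ha1 ha2 hb1 hb2 hnode

/-- **N1 for a nodal setup**: `g = genusFF K F` smooth points of the special fibre, outside any
given finite sets, such that every nodal pair with at most simple poles there is constant. -/
theorem NodalSetup.exists_nonspecial {K F k Fk₁ Fk₂ ι : Type*} [Field K] [Field F] [Algebra K F]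
    [Field k] [Field Fk₁] [Algebra k Fk₁] [Field Fk₂] [Algebra k Fk₂] [IsAlgClosed k]
    [Fintype ι] [Nonempty ι] (N : NodalSetup K F k Fk₁ Fk₂ ι) (hg : N.GenusRel)
    (Z₁ : Finset (Place k Fk₁)) (Z₂ : Finset (Place k Fk₂)) :
    ∃ (T₁ : Finset (Place k Fk₁)) (T₂ : Finset (Place k Fk₂)),
      T₁.card + T₂.card = genusFF K F ∧
      Disjoint T₁ Z₁ ∧ Disjoint T₂ Z₂ ∧ (∀ i, N.s₁ i ∉ T₁) ∧ (∀ i, N.s₂ i ∉ T₂) ∧
      ∀ (a : Fk₁) (b : Fk₂),
        (∀ Q, Q ∉ T₁ → 0 ≤ Q.ord a) → (∀ Q ∈ T₁, -1 ≤ Q.ord a) →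
        (∀ Q, Q ∉ T₂ → 0 ≤ Q.ord b) → (∀ Q ∈ T₂, -1 ≤ Q.ord b) →
        N.IsNodalFn a b →
        ∃ c : k, a = algebraMap k Fk₁ c ∧ b = algebraMap k Fk₂ c := by
  obtain ⟨T₁, T₂, hcard, hZ₁, hZ₂, hn₁, hn₂, hns⟩ :=
    exists_nodal_nonspecial N.S₁.hFk N.S₂.hFk N.s₁ N.s₂ N.s₁_inj N.s₂_inj Z₁ Z₂
  refine ⟨T₁, T₂, ?_, hZ₁, hZ₂, hn₁, hn₂, ?_⟩
  · have := hg
    unfold NodalSetup.GenusRel at this
    omega
  · intro a b ha1 ha2 hb1 hb2 hnod
    exact hns a b ha1 ha2 hb1 hb2 (fun i => (hnod i).2.2)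

end Fermat.Agent.BadRed
end
end MergeWrap_Lib_BadRed_Nodal_NS

section MergeWrap_Lib_BadRed_Nodal_NSGreedy -- from Lib/BadRed/Nodal/NSGreedy.lean

set_option autoImplicit false
set_option linter.style.haveILetI false
set_option linter.unusedSectionVars false

/-!
# Cluster T, WP N1 (greedy form): nodal non-special points chosen one by one

`exists_nodal_nonspecial_list`: the nodal non-special points can be chosen ONE BY ONE, each new
point avoiding a finite set `avoid (points already chosen)`; the result is a list in REVERSE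
chronological order (`GreedyChain avoid (x :: l)` iff `x ∉ avoid l.toFinset` and
`GreedyChain avoid l`).  `exists_nodal_nonspecial_fin`: the same as a family `Rb : Fin g → _` in
chronological order.
-/

noncomputable section

open AlgebraicCurve

namespace Fermat.Agent.BadRed

open Fermat.Agent.RR

open Classical in
/-- `l` (reverse chronological order) is a greedy chain over `base` for `avoid`: every element
avoids `avoid` of the elements chosen before it (the elements after it in `l`, and `base`). -/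
def GreedyChainOver {β : Type*} (avoid : Finset β → Finset β) (base : List β) : List β → Prop
  | [] => True
  | x :: l => x ∉ avoid (l ++ base).toFinset ∧ GreedyChainOver avoid base l

/-- greedy chains (reverse chronological order). -/
def GreedyChain {β : Type*} (avoid : Finset β → Finset β) (l : List β) : Prop :=
  GreedyChainOver avoid [] l

theorem greedyChainOver_nil {β : Type*} (avoid : Finset β → Finset β) (base : List β) :
    GreedyChainOver avoid base [] := trivial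

open Classical in
theorem greedyChainOver_cons {β : Type*} (avoid : Finset β → Finset β) (base : List β) (x : β)
    (l : List β) :
    GreedyChainOver avoid base (x :: l) ↔
      x ∉ avoid (l ++ base).toFinset ∧ GreedyChainOver avoid base l := Iff.rfl

theorem GreedyChainOver.append {β : Type*} {avoid : Finset β → Finset β} {base l : List β}
    (hl : GreedyChainOver avoid base l) (hb : GreedyChain avoid base) :
    GreedyChain avoid (l ++ base) := by
  induction l with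
  | nil => exact hb
  | cons x l ih =>
    rw [greedyChainOver_cons] at hl
    show GreedyChainOver avoid [] (x :: (l ++ base))
    rw [greedyChainOver_cons, List.append_nil]
    exact ⟨hl.1, ih hl.2⟩

variable {K F : Type*} [Field K] [Field F] [Algebra K F]

open Classical in
/-- greedy choice of `n` places, each avoiding a finite set depending on the previous choices,
keeping `ℓ` constant. -/
theorem exists_greedy_list (h : IsRRField K F) [Infinite (Place K F)] {β : Type*}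
    (emb : Place K F → β) (hemb : Function.Injective emb) (avoid : Finset β → Finset β)
    (base : List β) (Z : Finset (Place K F)) (D₀ : Divisor K F) (n : ℕ)
    (hn : Divisor.degree D₀ + n - (genusFF K F : ℤ) < (ell D₀ : ℤ)) :
    ∃ l : List (Place K F), l.length = n ∧ l.Nodup ∧ (∀ Q ∈ l, Q ∉ Z) ∧
      GreedyChainOver avoid base (l.map emb) ∧ ell (D₀ + sumPlaces l.toFinset) = ell D₀ := by
  induction n with
  | zero =>
    refine ⟨[], rfl, List.nodup_nil, by simp, trivial, ?_⟩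
    rw [List.toFinset_nil, sumPlaces_empty, add_zero]
  | succ n ih =>
    obtain ⟨l, hlen, hnd, hZ, hchain, hell⟩ := ih (by push_cast at hn ⊢; omega)
    have hD : Divisor.degree (D₀ + sumPlaces l.toFinset) + 1 - (genusFF K F : ℤ) <
        (ell (D₀ + sumPlaces l.toFinset) : ℤ) := by
      rw [map_add, degree_sumPlaces h, List.toFinset_card_of_nodup hnd, hlen, hell]
      push_cast at hn ⊢
      omega
    obtain ⟨P, hP, hPell⟩ := exists_place_ell_add_single_eq h (D₀ + sumPlaces l.toFinset) hD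
      (Z ∪ l.toFinset ∪ (avoid ((l.map emb) ++ base).toFinset).preimage emb hemb.injOn)
    rw [Finset.mem_union, Finset.mem_union, not_or, not_or, Finset.mem_preimage,
      List.mem_toFinset] at hP
    obtain ⟨⟨hPZ, hPl⟩, hPav⟩ := hP
    refine ⟨P :: l, by rw [List.length_cons, hlen], List.nodup_cons.mpr ⟨hPl, hnd⟩, ?_, ?_, ?_⟩
    · intro Q hQ
      rcases List.mem_cons.mp hQ with rfl | hQ
      · exact hPZ
      · exact hZ Q hQ
    · rw [List.map_cons, greedyChainOver_cons]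
      exact ⟨hPav, hchain⟩
    · rw [List.toFinset_cons, ← Finset.cons_eq_insert _ _ (by rwa [List.mem_toFinset]),
        sumPlaces_cons, ← add_assoc, hPell, hell]

theorem GreedyChainOver.nil_base {β : Type*} {avoid : Finset β → Finset β} {l : List β}
    (hl : GreedyChainOver avoid [] l) : GreedyChain avoid l := hl

open Classical in
/-- **N1, greedy list form**: the nodal non-special points can be chosen one by one, each new
point avoiding `avoid (points already chosen)` (list in reverse chronological order). -/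
theorem exists_nodal_nonspecial_list {k F₁ F₂ ι : Type*} [Field k] [Field F₁] [Algebra k F₁]
    [Field F₂] [Algebra k F₂] [IsAlgClosed k] [Fintype ι] [Nonempty ι]
    (h₁ : IsRRField k F₁) (h₂ : IsRRField k F₂)
    (s₁ : ι → Place k F₁) (s₂ : ι → Place k F₂) (hs₁ : Function.Injective s₁)
    (avoid : Finset (Place k F₁ ⊕ Place k F₂) → Finset (Place k F₁ ⊕ Place k F₂)) :
    ∃ l : List (Place k F₁ ⊕ Place k F₂),
      l.length + 1 = genusFF k F₁ + genusFF k F₂ + Fintype.card ι ∧ l.Nodup ∧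
      GreedyChain avoid l ∧
      (∀ i, Sum.inl (s₁ i) ∉ l) ∧ (∀ i, Sum.inr (s₂ i) ∉ l) ∧
      ∀ (a : F₁) (b : F₂),
        (∀ Q : Place k F₁, Sum.inl Q ∉ l → 0 ≤ Q.ord a) → (∀ Q : Place k F₁, -1 ≤ Q.ord a) →
        (∀ Q : Place k F₂, Sum.inr Q ∉ l → 0 ≤ Q.ord b) → (∀ Q : Place k F₂, -1 ≤ Q.ord b) →
        (∀ i, ∃ c : k, ValAt (s₁ i) a c ∧ ValAt (s₂ i) b c) →
        ∃ c : k, a = algebraMap k F₁ c ∧ b = algebraMap k F₂ c := by
  haveI : Infinite k := IsAlgClosed.instInfinite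
  haveI : Infinite (Place k F₁) := infinite_place h₁
  haveI : Infinite (Place k F₂) := infinite_place h₂
  set N₁ : Finset (Place k F₁) := Finset.univ.image s₁ with hN₁
  set N₂ : Finset (Place k F₂) := Finset.univ.image s₂ with hN₂
  have hcard : 0 < Fintype.card ι := Fintype.card_pos
  -- second component
  obtain ⟨l₂, hlen₂, hnd₂, hZ₂, hchain₂, hell₂⟩ := exists_greedy_list h₂ Sum.inr
    Sum.inr_injective avoid [] N₂ 0 (genusFF k F₂) (by
      rw [map_zero, ell_zero h₂]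
      push_cast
      omega)
  rw [zero_add, ell_zero h₂] at hell₂
  -- first component
  have hdeg0 : Divisor.degree (-sumPlaces N₁) = -(Fintype.card ι : ℤ) := by
    rw [map_neg, degree_sumPlaces_image h₁ s₁ hs₁]
  have hell0 : ell (-sumPlaces N₁) = 0 :=
    ell_eq_zero_of_degree_neg h₁ (by rw [hdeg0]; omega)
  obtain ⟨l₁, hlen₁, hnd₁, hZ₁, hchain₁, hell₁⟩ := exists_greedy_list h₁ Sum.inl
    Sum.inl_injective avoid (l₂.map Sum.inr) N₁ (-sumPlaces N₁)
    (genusFF k F₁ + Fintype.card ι - 1) (by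
      rw [hdeg0, hell0]
      have : ((genusFF k F₁ + Fintype.card ι - 1 : ℕ) : ℤ) =
          (genusFF k F₁ : ℤ) + (Fintype.card ι : ℤ) - 1 := by
        rw [Nat.cast_sub (by omega)]
        push_cast
        ring
      rw [this]
      push_cast
      omega)
  rw [hell0] at hell₁
  have hmem₁ : ∀ Q : Place k F₁, Sum.inl Q ∈ l₁.map Sum.inl ++ l₂.map Sum.inr ↔ Q ∈ l₁ := by
    intro Q
    simp
  have hmem₂ : ∀ Q : Place k F₂, Sum.inr Q ∈ l₁.map Sum.inl ++ l₂.map Sum.inr ↔ Q ∈ l₂ := by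
    intro Q
    simp
  refine ⟨l₁.map Sum.inl ++ l₂.map Sum.inr, ?_, ?_, ?_, ?_, ?_, ?_⟩
  · rw [List.length_append, List.length_map, List.length_map, hlen₁, hlen₂]
    omega
  · refine List.Nodup.append (hnd₁.map Sum.inl_injective) (hnd₂.map Sum.inr_injective) ?_
    intro x hx₁ hx₂
    obtain ⟨Q₁, -, rfl⟩ := List.mem_map.mp hx₁
    obtain ⟨Q₂, -, h⟩ := List.mem_map.mp hx₂
    exact Sum.inr_ne_inl h
  · exact hchain₁.append hchain₂.nil_base
  · intro i hi
    rw [hmem₁] at hi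
    exact hZ₁ _ hi (Finset.mem_image_of_mem s₁ (Finset.mem_univ i))
  · intro i hi
    rw [hmem₂] at hi
    exact hZ₂ _ hi (Finset.mem_image_of_mem s₂ (Finset.mem_univ i))
  · intro a b ha1 ha2 hb1 hb2 hnode
    refine nodal_pair_const h₁ h₂ s₁ s₂ (T₁ := l₁.toFinset) (T₂ := l₂.toFinset) hell₂ hell₁
      ?_ a b ?_ ?_ ?_ ?_ hnode
    · intro i hi
      rw [List.mem_toFinset] at hi
      exact hZ₁ _ hi (Finset.mem_image_of_mem s₁ (Finset.mem_univ i))
    · intro Q hQ
      rw [List.mem_toFinset] at hQ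
      exact ha1 Q (by rwa [hmem₁])
    · intro Q _
      exact ha2 Q
    · intro Q hQ
      rw [List.mem_toFinset] at hQ
      exact hb1 Q (by rwa [hmem₂])
    · intro Q _
      exact hb2 Q

open Classical in
/-- in a greedy chain every element avoids `avoid` of the elements after it. -/
theorem GreedyChain.getElem_notMem {β : Type*} {avoid : Finset β → Finset β} {l : List β}
    (hl : GreedyChain avoid l) (p : ℕ) (hp : p < l.length) :
    l[p] ∉ avoid (l.drop (p + 1)).toFinset := by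
  induction l generalizing p with
  | nil => simp at hp
  | cons x l ih =>
    have hl' : x ∉ avoid (l ++ []).toFinset ∧ GreedyChainOver avoid [] l := hl
    rw [List.append_nil] at hl'
    cases p with
    | zero => simpa using hl'.1
    | succ p =>
      have := ih hl'.2 p (by simpa using hp)
      simpa using this

open Classical in
/-- **N1, greedy form, indexed chronologically**: `Rb i` avoids `avoid {Rb j | j < i}`. -/
theorem exists_nodal_nonspecial_fin {k F₁ F₂ ι : Type*} [Field k] [Field F₁] [Algebra k F₁]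
    [Field F₂] [Algebra k F₂] [IsAlgClosed k] [Fintype ι] [Nonempty ι]
    (h₁ : IsRRField k F₁) (h₂ : IsRRField k F₂)
    (s₁ : ι → Place k F₁) (s₂ : ι → Place k F₂) (hs₁ : Function.Injective s₁)
    (avoid : Finset (Place k F₁ ⊕ Place k F₂) → Finset (Place k F₁ ⊕ Place k F₂))
    (g : ℕ) (hg : g + 1 = genusFF k F₁ + genusFF k F₂ + Fintype.card ι) :
    ∃ Rb : Fin g → Place k F₁ ⊕ Place k F₂,
      Function.Injective Rb ∧
      (∀ i, Rb i ∉ avoid ((Finset.univ.filter (fun j => j < i)).image Rb)) ∧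
      (∀ i j, Rb i ≠ Sum.inl (s₁ j)) ∧ (∀ i j, Rb i ≠ Sum.inr (s₂ j)) ∧
      ∀ (a : F₁) (b : F₂),
        (∀ Q : Place k F₁, (∀ i, Rb i ≠ Sum.inl Q) → 0 ≤ Q.ord a) →
        (∀ Q : Place k F₁, -1 ≤ Q.ord a) →
        (∀ Q : Place k F₂, (∀ i, Rb i ≠ Sum.inr Q) → 0 ≤ Q.ord b) →
        (∀ Q : Place k F₂, -1 ≤ Q.ord b) →
        (∀ i, ∃ c : k, ValAt (s₁ i) a c ∧ ValAt (s₂ i) b c) →
        ∃ c : k, a = algebraMap k F₁ c ∧ b = algebraMap k F₂ c := by
  obtain ⟨l, hlen, hnd, hchain, hn₁, hn₂, hns⟩ :=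
    exists_nodal_nonspecial_list h₁ h₂ s₁ s₂ hs₁ avoid
  have hlg : l.length = g := by omega
  have hidx : ∀ i : Fin g, g - 1 - (i : ℕ) < l.length := fun i => by
    have := i.2
    omega
  set Rb : Fin g → Place k F₁ ⊕ Place k F₂ := fun i => l[g - 1 - (i : ℕ)]'(hidx i) with hRb
  have hRb_mem : ∀ i, Rb i ∈ l := fun i => List.getElem_mem _
  have hmem_Rb : ∀ x ∈ l, ∃ i, Rb i = x := by
    intro x hx
    obtain ⟨q, hq, rfl⟩ := List.getElem_of_mem hx
    refine ⟨⟨g - 1 - q, by omega⟩, ?_⟩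
    show l[g - 1 - (g - 1 - q)]'_ = l[q]
    congr 1
    omega
  refine ⟨Rb, ?_, ?_, ?_, ?_, ?_⟩
  · intro i j hij
    have h1 := (List.Nodup.getElem_inj_iff hnd).mp hij
    have hi := i.2
    have hj := j.2
    apply Fin.ext
    omega
  · intro i
    have h1 := hchain.getElem_notMem (g - 1 - (i : ℕ)) (hidx i)
    have h2 : (Finset.univ.filter (fun j => j < i)).image Rb =
        (l.drop (g - 1 - (i : ℕ) + 1)).toFinset := by
      ext x
      rw [Finset.mem_image, List.mem_toFinset]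
      constructor
      · rintro ⟨j, hj, rfl⟩
        rw [Finset.mem_filter] at hj
        have hji : (j : ℕ) < (i : ℕ) := hj.2
        have hi := i.2
        rw [List.mem_iff_getElem]
        refine ⟨(i : ℕ) - 1 - (j : ℕ), ?_, ?_⟩
        · rw [List.length_drop]
          omega
        · rw [List.getElem_drop]
          show l[_] = l[_]
          congr 1
          omega
      · intro hx
        rw [List.mem_iff_getElem] at hx
        obtain ⟨q, hq, rfl⟩ := hx
        rw [List.length_drop] at hq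
        have hi := i.2
        refine ⟨⟨(i : ℕ) - 1 - q, by omega⟩, ?_, ?_⟩
        · rw [Finset.mem_filter]
          refine ⟨Finset.mem_univ _, ?_⟩
          show (i : ℕ) - 1 - q < (i : ℕ)
          omega
        · rw [List.getElem_drop]
          show l[_] = l[_]
          congr 1
          show g - 1 - ((i : ℕ) - 1 - q) = g - 1 - (i : ℕ) + 1 + q
          omega
    rw [h2]
    convert h1
  · intro i j h
    exact hn₁ j (h ▸ hRb_mem i)
  · intro i j h
    exact hn₂ j (h ▸ hRb_mem i)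
  · intro a b ha1 ha2 hb1 hb2 hnode
    refine hns a b ?_ ha2 ?_ hb2 hnode
    · intro Q hQ
      apply ha1 Q
      intro i hi
      exact hQ (hi ▸ hRb_mem i)
    · intro Q hQ
      apply hb1 Q
      intro i hi
      exact hQ (hi ▸ hRb_mem i)

end Fermat.Agent.BadRed
end
end MergeWrap_Lib_BadRed_Nodal_NSGreedy

section MergeWrap_Lib_BadRed_Nodal_NSBuildLift -- from Lib/BadRed/Nodal/NSBuildLift.lean

set_option autoImplicit false
set_option linter.style.haveILetI false
set_option linter.unusedSectionVars false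

/-!
# Cluster T, WP N2b: construction of `NodalNS` from the lifting property (LIFT) (helper7)

Input: a nodal reduction package `N` with the genus relation, divisors `D₀` on the generic fibre
and `R₁`, `R₂` of positive degree on the two components, away from the nodes, and

* (LIFT) for `m ≥ m₀` every pair of `nodalRR s₁ s₂ (m R₁) (m R₂)` is the pair reduction of a
  function of `L(m D₀) ∩ O₁ ∩ O₂`   (`NodalSeed.exists_lift`, N4 step S1).

Output: `Nonempty (NodalNS N (genusFF K F))`.  No base function and no hypothesis on the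
reduction of the support of `D₀` is needed: the points `Rb i` (N1, `exists_nodal_nonspecial_fin`)
are chosen outside the supports of `R₁`, `R₂` and outside the (finite) image under `r` of the
support of `D₀`; the parameter `t i` is a lift of an interpolated nodal pair `(a, b)` (helper92's
`Interp1.exists_param`, `Interp1.exists_unit_fn`): `a`, `b` vanish at the nodes, the pair has a
simple zero at `Rb i` and is a unit at the `Rb j`, `j ≠ i`; `R i` is the zero of `t i` in the disc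
of `Rb i` (`push`).
-/

noncomputable section

open AlgebraicCurve Fermat.Agent.RR Fermat.Agent.Deuring

namespace Fermat.Agent.BadRed

variable {K F k Fk₁ Fk₂ : Type*} [Field K] [Field F] [Algebra K F]
  [Field k] [Field Fk₁] [Algebra k Fk₁] [Field Fk₂] [Algebra k Fk₂] {ι : Type*}

variable (N : NodalSetup K F k Fk₁ Fk₂ ι)

/-- a unit of both valuation rings has a zero in the residue disc of a smooth point where its
pair reduction vanishes. -/
theorem NodalSetup.exists_zero_of_pairOrd_pos {f : F} (h₁ : N.S₁.red f ≠ 0)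
    (h₂ : N.S₂.red f ≠ 0) (Q : Place k Fk₁ ⊕ Place k Fk₂)
    (hn₁ : ∀ i, Q ≠ Sum.inl (N.s₁ i)) (hn₂ : ∀ i, Q ≠ Sum.inr (N.s₂ i))
    (hQ : 0 < pairOrd Q (N.S₁.red f) (N.S₂.red f)) :
    ∃ R : Place K F, N.r R = some Q ∧ 0 < R.ord f := by
  rcases Q with Q | Q
  · have hpush := N.push₁ f (N.S₁.mem_of_red_ne_zero h₁) (N.S₁.inv_mem_of_red_ne_zero h₁)
      (N.S₁.ne_zero_of_red_ne_zero h₁) Q (fun i h => hn₁ i (h ▸ rfl))
    obtain ⟨R, hR, hpos⟩ := Fermat.Agent.S18Key.exists_of_mapDomain_pos N.r _ _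
      (by rw [hpush]; exact hQ)
    rw [divOf_apply] at hpos
    exact ⟨R, hR, hpos⟩
  · have hpush := N.push₂ f (N.S₂.mem_of_red_ne_zero h₂) (N.S₂.inv_mem_of_red_ne_zero h₂)
      (N.S₂.ne_zero_of_red_ne_zero h₂) Q (fun i h => hn₂ i (h ▸ rfl))
    obtain ⟨R, hR, hpos⟩ := Fermat.Agent.S18Key.exists_of_mapDomain_pos N.r _ _
      (by rw [hpush]; exact hQ)
    rw [divOf_apply] at hpos
    exact ⟨R, hR, hpos⟩

/-- the interpolated nodal pair at `Rb i`: both functions vanish at the nodes, the pair has a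
simple zero at `Rb i` and order `0` at the other `Rb j`. -/
theorem NodalSetup.exists_pair_at [Infinite k] [Fintype ι] {g : ℕ}
    (Rb : Fin g → Place k Fk₁ ⊕ Place k Fk₂) (hinj : Function.Injective Rb)
    (R₁ : Divisor k Fk₁) (R₂ : Divisor k Fk₂)
    (hn₁ : ∀ i, R₁ (N.s₁ i) = 0) (hn₂ : ∀ i, R₂ (N.s₂ i) = 0)
    (hRb₁ : ∀ i Q, Rb i = Sum.inl Q → R₁ Q = 0) (hRb₂ : ∀ i Q, Rb i = Sum.inr Q → R₂ Q = 0)
    (hnode₁ : ∀ i j, Rb i ≠ Sum.inl (N.s₁ j)) (hnode₂ : ∀ i j, Rb i ≠ Sum.inr (N.s₂ j))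
    (hdeg₁ : 2 * (genusFF k Fk₁ : ℤ) + Fintype.card ι < Divisor.degree R₁)
    (hdeg₂ : 2 * (genusFF k Fk₂ : ℤ) + Fintype.card ι < Divisor.degree R₂) (i : Fin g) :
    ∃ (a : Fk₁) (b : Fk₂), a ≠ 0 ∧ b ≠ 0 ∧ (a, b) ∈ nodalRR N.s₁ N.s₂ R₁ R₂ ∧
      pairOrd (Rb i) a b = 1 ∧ ∀ j, j ≠ i → pairOrd (Rb j) a b = 0 := by
  classical
  set Z₁ : Finset (Place k Fk₁) := Finset.univ.image N.s₁ with hZ₁
  set Z₂ : Finset (Place k Fk₂) := Finset.univ.image N.s₂ with hZ₂
  set U₁ : Finset (Place k Fk₁) := ((Finset.univ.erase i).image Rb).toLeft with hU₁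
  set U₂ : Finset (Place k Fk₂) := ((Finset.univ.erase i).image Rb).toRight with hU₂
  have hcard₁ : (Z₁.card : ℤ) ≤ Fintype.card ι := by
    exact_mod_cast (Finset.card_image_le).trans (le_of_eq Finset.card_univ)
  have hcard₂ : (Z₂.card : ℤ) ≤ Fintype.card ι := by
    exact_mod_cast (Finset.card_image_le).trans (le_of_eq Finset.card_univ)
  have hmemZ₁ : ∀ P, P ∈ Z₁ ↔ ∃ j, N.s₁ j = P := fun P => by
    rw [hZ₁, Finset.mem_image]
    exact ⟨fun ⟨j, _, h⟩ => ⟨j, h⟩, fun ⟨j, h⟩ => ⟨j, Finset.mem_univ _, h⟩⟩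
  have hmemZ₂ : ∀ P, P ∈ Z₂ ↔ ∃ j, N.s₂ j = P := fun P => by
    rw [hZ₂, Finset.mem_image]
    exact ⟨fun ⟨j, _, h⟩ => ⟨j, h⟩, fun ⟨j, h⟩ => ⟨j, Finset.mem_univ _, h⟩⟩
  have hmemU₁ : ∀ P, P ∈ U₁ ↔ ∃ j, j ≠ i ∧ Rb j = Sum.inl P := fun P => by
    rw [hU₁, Finset.mem_toLeft, Finset.mem_image]
    constructor
    · rintro ⟨j, hj, h⟩
      exact ⟨j, (Finset.mem_erase.mp hj).1, h⟩
    · rintro ⟨j, hj, h⟩
      exact ⟨j, Finset.mem_erase.mpr ⟨hj, Finset.mem_univ _⟩, h⟩
  have hmemU₂ : ∀ P, P ∈ U₂ ↔ ∃ j, j ≠ i ∧ Rb j = Sum.inr P := fun P => by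
    rw [hU₂, Finset.mem_toRight, Finset.mem_image]
    constructor
    · rintro ⟨j, hj, h⟩
      exact ⟨j, (Finset.mem_erase.mp hj).1, h⟩
    · rintro ⟨j, hj, h⟩
      exact ⟨j, Finset.mem_erase.mpr ⟨hj, Finset.mem_univ _⟩, h⟩
  have hZR₁ : ∀ P ∈ Z₁, R₁ P = 0 := fun P hP => by
    obtain ⟨j, rfl⟩ := (hmemZ₁ P).mp hP
    exact hn₁ j
  have hZR₂ : ∀ P ∈ Z₂, R₂ P = 0 := fun P hP => by
    obtain ⟨j, rfl⟩ := (hmemZ₂ P).mp hP
    exact hn₂ j
  have hUR₁ : ∀ P ∈ U₁, R₁ P = 0 ∧ P ∉ Z₁ := fun P hP => by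
    obtain ⟨j, -, hj⟩ := (hmemU₁ P).mp hP
    refine ⟨hRb₁ j P hj, fun hZ => ?_⟩
    obtain ⟨j', rfl⟩ := (hmemZ₁ P).mp hZ
    exact hnode₁ j j' hj
  have hUR₂ : ∀ P ∈ U₂, R₂ P = 0 ∧ P ∉ Z₂ := fun P hP => by
    obtain ⟨j, -, hj⟩ := (hmemU₂ P).mp hP
    refine ⟨hRb₂ j P hj, fun hZ => ?_⟩
    obtain ⟨j', rfl⟩ := (hmemZ₂ P).mp hZ
    exact hnode₂ j j' hj
  have hval₁ : ∀ a : Fk₁, (∀ P ∈ Z₁, 0 < P.ord a) → ∀ j, ValAt (N.s₁ j) a 0 := fun a ha j =>
    (valAt_zero_right_iff _ _).mpr (Or.inr (ha _ ((hmemZ₁ _).mpr ⟨j, rfl⟩)))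
  have hval₂ : ∀ b : Fk₂, (∀ P ∈ Z₂, 0 < P.ord b) → ∀ j, ValAt (N.s₂ j) b 0 := fun b hb j =>
    (valAt_zero_right_iff _ _).mpr (Or.inr (hb _ ((hmemZ₂ _).mpr ⟨j, rfl⟩)))
  rcases hi : Rb i with Q | Q
  · obtain ⟨a, haR, ha0, haZ, haQ, haU⟩ := Interp1.exists_param N.S₁.hFk R₁ Z₁ U₁ Q hZR₁
      (fun P hP => ⟨(hUR₁ P hP).1, (hUR₁ P hP).2, fun hPQ => by
        obtain ⟨j, hji, hj⟩ := (hmemU₁ P).mp hP
        rw [hPQ, ← hi] at hj
        exact hji (hinj hj)⟩)
      ⟨hRb₁ i Q hi, fun hZ => by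
        obtain ⟨j', hj'⟩ := (hmemZ₁ Q).mp hZ
        exact hnode₁ i j' (hj' ▸ hi)⟩ (by omega)
    obtain ⟨b, hbR, hb0, hbZ, hbU⟩ := Interp1.exists_unit_fn N.S₂.hFk R₂ Z₂ U₂ hZR₂ hUR₂
      (by omega)
    refine ⟨a, b, ha0, hb0, ⟨haR, hbR, fun j => ⟨0, hval₁ a haZ j, hval₂ b hbZ j⟩⟩, haQ, ?_⟩
    intro j hj
    rcases hRj : Rb j with P | P
    · exact haU P ((hmemU₁ P).mpr ⟨j, hj, hRj⟩)
    · exact hbU P ((hmemU₂ P).mpr ⟨j, hj, hRj⟩)
  · obtain ⟨b, hbR, hb0, hbZ, hbQ, hbU⟩ := Interp1.exists_param N.S₂.hFk R₂ Z₂ U₂ Q hZR₂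
      (fun P hP => ⟨(hUR₂ P hP).1, (hUR₂ P hP).2, fun hPQ => by
        obtain ⟨j, hji, hj⟩ := (hmemU₂ P).mp hP
        rw [hPQ, ← hi] at hj
        exact hji (hinj hj)⟩)
      ⟨hRb₂ i Q hi, fun hZ => by
        obtain ⟨j', hj'⟩ := (hmemZ₂ Q).mp hZ
        exact hnode₂ i j' (hj' ▸ hi)⟩ (by omega)
    obtain ⟨a, haR, ha0, haZ, haU⟩ := Interp1.exists_unit_fn N.S₁.hFk R₁ Z₁ U₁ hZR₁ hUR₁
      (by omega)
    refine ⟨a, b, ha0, hb0, ⟨haR, hbR, fun j => ⟨0, hval₁ a haZ j, hval₂ b hbZ j⟩⟩, hbQ, ?_⟩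
    intro j hj
    rcases hRj : Rb j with P | P
    · exact haU P ((hmemU₁ P).mpr ⟨j, hj, hRj⟩)
    · exact hbU P ((hmemU₂ P).mpr ⟨j, hj, hRj⟩)

/-- the lifting property (LIFT) for the divisors `D₀`, `R₁`, `R₂`
(`NodalSeed.exists_lift`). -/
def NodalSetup.HasLift (D₀ : Divisor K F) (R₁ : Divisor k Fk₁) (R₂ : Divisor k Fk₂) : Prop :=
  ∃ m₀ : ℕ, ∀ m : ℕ, m₀ ≤ m → ∀ (a : Fk₁) (b : Fk₂),
    (a, b) ∈ nodalRR N.s₁ N.s₂ (m • R₁) (m • R₂) →
    ∃ f : F, f ∈ riemannRochSpace (m • D₀) ∧ f ∈ N.S₁.Ov ∧ f ∈ N.S₂.Ov ∧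
      N.S₁.red f = a ∧ N.S₂.red f = b

open Classical in
/-- the points of `C₁ ⊔ C₂` to avoid: the supports of `R₁`, `R₂` and the reductions of the
points of the support of `D₀`. -/
def NodalSetup.liftAvoid (D₀ : Divisor K F) (R₁ : Divisor k Fk₁) (R₂ : Divisor k Fk₂) :
    Finset (Place k Fk₁ ⊕ Place k Fk₂) :=
  R₁.support.image Sum.inl ∪ R₂.support.image Sum.inr ∪
    (D₀.support.image N.r).eraseNone

theorem NodalSetup.notMem_liftAvoid {D₀ : Divisor K F} {R₁ : Divisor k Fk₁}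
    {R₂ : Divisor k Fk₂} {X : Place k Fk₁ ⊕ Place k Fk₂} (h : X ∉ N.liftAvoid D₀ R₁ R₂) :
    (∀ Q, X = Sum.inl Q → R₁ Q = 0) ∧ (∀ Q, X = Sum.inr Q → R₂ Q = 0) ∧
      ∀ P, N.r P = some X → D₀ P = 0 := by
  classical
  unfold NodalSetup.liftAvoid at h
  rw [Finset.mem_union, Finset.mem_union, not_or, not_or] at h
  obtain ⟨⟨h1, h2⟩, h3⟩ := h
  refine ⟨fun Q hQ => ?_, fun Q hQ => ?_, fun P hP => ?_⟩
  · by_contra hne
    exact h1 (Finset.mem_image.mpr ⟨Q, Finsupp.mem_support_iff.mpr hne, hQ.symm⟩)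
  · by_contra hne
    exact h2 (Finset.mem_image.mpr ⟨Q, Finsupp.mem_support_iff.mpr hne, hQ.symm⟩)
  · by_contra hne
    apply h3
    rw [Finset.mem_eraseNone]
    exact Finset.mem_image.mpr ⟨P, Finsupp.mem_support_iff.mpr hne, hP⟩

/-- **N2b, lifting form: construction of `NodalNS` from (LIFT).** -/
theorem NodalSetup.nonempty_nodalNS_of_lift [IsAlgClosed k] [Fintype ι] [Nonempty ι]
    (hg : N.GenusRel) (D₀ : Divisor K F) (R₁ : Divisor k Fk₁) (R₂ : Divisor k Fk₂)
    (hR₁ : 0 < Divisor.degree R₁) (hR₂ : 0 < Divisor.degree R₂)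
    (hn₁ : ∀ i, R₁ (N.s₁ i) = 0) (hn₂ : ∀ i, R₂ (N.s₂ i) = 0)
    (hlift : N.HasLift D₀ R₁ R₂) : Nonempty (NodalNS N (genusFF K F)) := by
  classical
  haveI : Infinite k := IsAlgClosed.instInfinite
  haveI : Infinite (Place k Fk₁) := infinite_place N.S₁.hFk
  obtain ⟨Rb, hinj, havoid, hnode₁, hnode₂, hns⟩ :=
    exists_nodal_nonspecial_fin N.S₁.hFk N.S₂.hFk N.s₁ N.s₂ N.s₁_inj
      (fun _ => N.liftAvoid D₀ R₁ R₂) (genusFF K F) hg
  have hav := fun i => N.notMem_liftAvoid (havoid i)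
  obtain ⟨m₀, hm₀⟩ := hlift
  -- the multiple
  set m : ℕ := max m₀ (2 * (genusFF k Fk₁ + genusFF k Fk₂) + Fintype.card ι + 1) with hm
  have hm1 : m₀ ≤ m := le_max_left _ _
  have hm2 : 2 * (genusFF k Fk₁ + genusFF k Fk₂) + Fintype.card ι + 1 ≤ m := le_max_right _ _
  have hm2' : (2 * ((genusFF k Fk₁ : ℤ) + genusFF k Fk₂) + Fintype.card ι + 1 : ℤ) ≤ m := by
    exact_mod_cast hm2
  have hdeg₁ : 2 * (genusFF k Fk₁ : ℤ) + Fintype.card ι < Divisor.degree (m • R₁) := by
    rw [map_nsmul, nsmul_eq_mul]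
    have h3 : (m : ℤ) ≤ m * Divisor.degree R₁ := by
      have := Int.natCast_nonneg m
      nlinarith
    have := Int.natCast_nonneg (genusFF k Fk₂)
    omega
  have hdeg₂ : 2 * (genusFF k Fk₂ : ℤ) + Fintype.card ι < Divisor.degree (m • R₂) := by
    rw [map_nsmul, nsmul_eq_mul]
    have h3 : (m : ℤ) ≤ m * Divisor.degree R₂ := by
      have := Int.natCast_nonneg m
      nlinarith
    have := Int.natCast_nonneg (genusFF k Fk₁)
    omega
  -- the parameters
  have hpar : ∀ i, ∃ t : F, t ∈ riemannRochSpace (m • D₀) ∧ t ∈ N.S₁.Ov ∧ t ∈ N.S₂.Ov ∧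
      N.S₁.red t ≠ 0 ∧ N.S₂.red t ≠ 0 ∧ pairOrd (Rb i) (N.S₁.red t) (N.S₂.red t) = 1 ∧
        ∀ j, j ≠ i → pairOrd (Rb j) (N.S₁.red t) (N.S₂.red t) = 0 := by
    intro i
    obtain ⟨a, b, ha0, hb0, hab, hself, hother⟩ := N.exists_pair_at Rb hinj (m • R₁) (m • R₂)
      (fun j => by rw [Finsupp.smul_apply, hn₁ j, smul_zero])
      (fun j => by rw [Finsupp.smul_apply, hn₂ j, smul_zero])
      (fun j Q hQ => by rw [Finsupp.smul_apply, (hav j).1 Q hQ, smul_zero])
      (fun j Q hQ => by rw [Finsupp.smul_apply, (hav j).2.1 Q hQ, smul_zero])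
      hnode₁ hnode₂ hdeg₁ hdeg₂ i
    obtain ⟨t, ht, ht₁, ht₂, hra, hrb⟩ := hm₀ m hm1 a b hab
    refine ⟨t, ht, ht₁, ht₂, by rw [hra]; exact ha0, by rw [hrb]; exact hb0, ?_, ?_⟩
    · rw [hra, hrb]; exact hself
    · intro j hj
      rw [hra, hrb]; exact hother j hj
  choose t ht ht₁ ht₂ hred₁ hred₂ hself hother using hpar
  -- the lifts
  have hlifts : ∀ i, ∃ R : Place K F, N.r R = some (Rb i) ∧ 0 < R.ord (t i) := fun i =>
    N.exists_zero_of_pairOrd_pos (hred₁ i) (hred₂ i) (Rb i) (hnode₁ i) (hnode₂ i)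
      (by rw [hself i]; norm_num)
  choose R hrR hRpos using hlifts
  -- the base point
  obtain ⟨Q₀, hQ₀⟩ := Infinite.exists_notMem_finset
    ((Finset.univ.image N.s₁) ∪ (Finset.univ.image Rb).toLeft)
  rw [Finset.mem_union, not_or] at hQ₀
  have hQ₀n : ∀ i, Q₀ ≠ N.s₁ i := fun i h =>
    hQ₀.1 (Finset.mem_image.mpr ⟨i, Finset.mem_univ _, h.symm⟩)
  have hQ₀R : ∀ i, Rb i ≠ Sum.inl Q₀ := fun i h =>
    hQ₀.2 (Finset.mem_toLeft.mpr (Finset.mem_image.mpr ⟨i, Finset.mem_univ _, h⟩))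
  obtain ⟨P0, hP0⟩ := N.r_surj₁ Q₀ hQ₀n
  refine ⟨{
    Rb := Rb
    Rb_inj := hinj
    R := R
    r_R := hrR
    t := t
    t_mem₁ := ht₁
    t_mem₂ := ht₂
    t_red₁ := hred₁
    t_red₂ := hred₂
    ord_t_self := hself
    ord_t_other := fun i j hij => hother i j (Ne.symm hij)
    t_reg := fun i j P hP => by
      have h0 : t i ≠ 0 := N.S₁.ne_zero_of_red_ne_zero (hred₁ i)
      have h1 := ((mem_riemannRochSpace_iff.mp (ht i)) P).resolve_left h0
      rw [Finsupp.smul_apply, (hav j).2.2 P hP, smul_zero, neg_zero] at h1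
      exact h1
    t_R := hRpos
    nonspecial := fun f b hnod h1 h2 h3 => by
      refine hns f b h1 ?_ h2 ?_ (fun i => (hnod i).2.2)
      · intro Q
        by_cases hQ : ∃ i, Rb i = Sum.inl Q
        · obtain ⟨i, hi⟩ := hQ
          have := h3 i
          rw [hi] at this
          exact this
        · push Not at hQ
          have := h1 Q hQ
          omega
      · intro Q
        by_cases hQ : ∃ i, Rb i = Sum.inr Q
        · obtain ⟨i, hi⟩ := hQ
          have := h3 i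
          rw [hi] at this
          exact this
        · push Not at hQ
          have := h2 Q hQ
          omega
    P0 := P0
    P0_ord := ⟨_, hP0⟩
    r_P0 := fun i h => hQ₀R i (by
      rw [hP0] at h
      exact (Option.some.inj h).symm) }⟩

end Fermat.Agent.BadRed
end
end MergeWrap_Lib_BadRed_Nodal_NSBuildLift
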